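import Fermat.Agent.S17.Top.Interface
import Fermat.Agent.S17.F.Reduced

/-!
# S17, block NG1 + NG2: equivariance of `ev`, `cls`, `IsRed`, `redDiv` under semilinear
automorphisms.   (skeleton: helper17, proofs: helper21)
-/

set_option autoImplicit false
set_option linter.unusedSectionVars false

noncomputable section

namespace Fermat.Agent.S17.NG

open AlgebraicCurve Fermat.Agent.S24 Fermat.Agent.S24.FF Fermat.Agent.S27

section General

variable {K F : Type*} [Field K] [Field F] [Algebra K F] [IsAlgClosed K] [CharZero K] [IsFF1 K F]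

omit [IsAlgClosed K] [CharZero K] [IsFF1 K F] in
theorem isVal_smul (g : SemilinearAut K F) {P : Place K F} {f : F} {c : K} (h : IsVal P f c) :
    IsVal (g • P) (g • f) (SemilinearAut.baseAut g c) := by
  rcases h with h | h
  · left
    rw [h, SemilinearAut.smul_algebraMap]
  · right
    rw [← SemilinearAut.smul_algebraMap, ← smul_sub, SemilinearAut.ord_smul]
    exact h

omit [IsAlgClosed K] [CharZero K] [IsFF1 K F] in
/-- NG1 -/
theorem ev_smul (g : SemilinearAut K F) (P : Place K F) (f : F) :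
    ev (g • P) (g • f) = SemilinearAut.baseAut g (ev P f) := by
  classical
  by_cases hex : ∃ c : K, IsVal P f c
  · obtain ⟨c, hc⟩ := hex
    rw [ev_eq_of_isVal hc, ev_eq_of_isVal (isVal_smul g hc)]
  · have hex' : ¬ ∃ c : K, IsVal (g • P) (g • f) c := by
      rintro ⟨c, hc⟩
      apply hex
      have h1 := isVal_smul g⁻¹ hc
      rw [inv_smul_smul, inv_smul_smul] at h1
      exact ⟨_, h1⟩
    unfold ev
    rw [dif_neg hex, dif_neg hex', map_zero]

omit [IsAlgClosed K] [CharZero K] [IsFF1 K F] in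
/-- NG2a -/
theorem cls_smul (g : SemilinearAut K F) (D : Divisor K F) : cls (g • D) = g • cls D := by
  classical
  unfold cls
  by_cases h : D ∈ Divisor.degZero (K := K) (F := F)
  · rw [dif_pos h, dif_pos (SemilinearAut.smul_mem_degZero g h), SemilinearAut.pic0_smul_mk]
    rfl
  · have h' : g • D ∉ Divisor.degZero (K := K) (F := F) := by
      intro h1
      apply h
      rwa [Divisor.mem_degZero, SemilinearAut.degree_smul] at h1
    rw [dif_neg h, dif_neg h']
    exact (smul_zero (A := Pic0 K F) g).symm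

omit [IsAlgClosed K] [CharZero K] [IsFF1 K F] in
theorem smul_nonneg_div (g : SemilinearAut K F) {E : Divisor K F} (hE : 0 ≤ E) : 0 ≤ g • E := by
  intro w
  rw [SemilinearAut.divisor_smul_apply]
  exact hE _

omit [IsAlgClosed K] [CharZero K] [IsFF1 K F] in
theorem smul_red (g : SemilinearAut K F) {P₀ : Place K F} (hP : g • P₀ = P₀) (E : Divisor K F) :
    g • (E - (Divisor.degree E) • pt P₀) = g • E - (Divisor.degree (g • E)) • pt P₀ := by
  have h1 : g • pt P₀ = pt P₀ := by
    rw [pt, SemilinearAut.smul_single, hP]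
  have h2 : g • ((Divisor.degree E) • pt P₀) = (Divisor.degree E) • (g • pt P₀) :=
    map_zsmul (DistribSMul.toAddMonoidHom (Divisor K F) g) _ _
  rw [smul_sub, h2, h1, SemilinearAut.degree_smul]

omit [IsAlgClosed K] [CharZero K] [IsFF1 K F] in
/-- NG2b -/
theorem isRed_smul (g : SemilinearAut K F) {P₀ : Place K F} {x : Pic0 K F} {E : Divisor K F}
    (hP : g • P₀ = P₀) (h : IsRed P₀ x E) : IsRed P₀ (g • x) (g • E) := by
  obtain ⟨hE, hcls, hmin⟩ := h
  refine ⟨smul_nonneg_div g hE, ?_, fun E' hE' hcls' => ?_⟩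
  · rw [← smul_red g hP, cls_smul, hcls]
  · have hP' : g⁻¹ • P₀ = P₀ := by
      rw [inv_smul_eq_iff, hP]
    have h1 := hmin (g⁻¹ • E') (smul_nonneg_div g⁻¹ hE') (by
      rw [← smul_red g⁻¹ hP', cls_smul, hcls', inv_smul_smul])
    rwa [SemilinearAut.degree_smul, ← SemilinearAut.degree_smul g E] at h1

/-- NG2c -/
theorem isRed_redDiv [NonConst K F] (P₀ : Place K F) (x : Pic0 K F) :
    IsRed P₀ x (redDiv P₀ x) := by
  have h := Fermat.Agent.S17.F.exists_isRed P₀ x
  unfold redDiv
  rw [dif_pos h]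
  exact h.choose_spec

/-- NG2d -/
theorem smul_redDiv [NonConst K F] (g : SemilinearAut K F) {P₀ : Place K F} {x : Pic0 K F}
    (hP : g • P₀ = P₀) (hx : g • x = x) : g • redDiv P₀ x = redDiv P₀ x := by
  have h1 := isRed_smul g hP (isRed_redDiv P₀ x)
  rw [hx] at h1
  exact Fermat.Agent.S17.F.IsRed.unique h1 (isRed_redDiv P₀ x)

end General

end Fermat.Agent.S17.NG
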