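import Fermat.Agent.S17.Top.Interface

/-!
# S17, block NG, node NG4: fibres of a function, effective divisors of bounded degree, `sumD`.
Owner: helper231 (task 1597).
-/

set_option autoImplicit false
set_option linter.unusedSectionVars false

noncomputable section

namespace Fermat.Agent.S17.NG

open AlgebraicCurve Fermat.Agent.S24 Fermat.Agent.S24.FF Fermat.Agent.S27 ModularCurve Polynomial

section General

variable {K F : Type*} [Field K] [Field F] [Algebra K F] [IsAlgClosed K] [CharZero K] [IsFF1 K F]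

/-- NG4a -/
theorem finite_setOf_ev_eq (x : F) (hx : ¬ ∃ c : K, x = algebraMap K F c) (c : K) :
    {P : Place K F | 0 ≤ P.ord x ∧ ev P x = c}.Finite := by
  refine (finite_ord_ne_zero (K := K) (x - algebraMap K F c)).subset ?_
  rintro P ⟨h0, rfl⟩
  rcases isVal_ev h0 with h | h
  · exact absurd ⟨_, h⟩ hx
  · exact h.ne'

/-- NG4b -/
theorem finite_setOf_effective (T : Set (Place K F)) (hT : T.Finite) (d : ℤ) :
    {E : Divisor K F | 0 ≤ E ∧ (↑E.support : Set (Place K F)) ⊆ T ∧ Divisor.degree E ≤ d}.Finite := by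
  classical
  refine (Finset.finite_toSet (hT.toFinset.finsupp fun _ => Finset.Icc (0 : ℤ) d)).subset ?_
  rintro E ⟨hE, hsupp, hdeg⟩
  rw [Finset.mem_coe, Finset.mem_finsupp_iff]
  refine ⟨fun P hP => hT.mem_toFinset.2 (hsupp hP), fun P _ => Finset.mem_Icc.2 ⟨hE P, ?_⟩⟩
  refine le_trans ?_ hdeg
  rw [degree_eq_sum, Finsupp.sum]
  by_cases hP : P ∈ E.support
  · exact Finset.single_le_sum (f := fun v => E v) (fun v _ => hE v) hP
  · rw [Finsupp.notMem_support_iff.1 hP]
    exact Finset.sum_nonneg fun v _ => hE v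

/-- NG4c -/
theorem sumD_nonneg (h : Place K F → ℝ) (hh : ∀ P, 0 ≤ h P) (E : Divisor K F) (hE : 0 ≤ E) :
    0 ≤ sumD h E :=
  Finset.sum_nonneg fun P _ => mul_nonneg (Int.cast_nonneg (hE P)) (hh P)

/-- NG4d -/
theorem le_sumD (h : Place K F → ℝ) (hh : ∀ P, 0 ≤ h P) (E : Divisor K F) (hE : 0 ≤ E)
    (P : Place K F) (hP : P ∈ E.support) : h P ≤ sumD h E := by
  have h1 : (1 : ℤ) ≤ E P :=
    Int.add_one_le_iff.2 (lt_of_le_of_ne (hE P) (Ne.symm (Finsupp.mem_support_iff.1 hP)))
  have h2 : (1 : ℝ) ≤ (E P : ℝ) := by exact_mod_cast h1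
  calc h P = 1 * h P := (one_mul _).symm
    _ ≤ (E P : ℝ) * h P := mul_le_mul_of_nonneg_right h2 (hh P)
    _ ≤ sumD h E := Finset.single_le_sum (f := fun v => (E v : ℝ) * h v)
        (fun v _ => mul_nonneg (Int.cast_nonneg (hE v)) (hh v)) hP

end General

end Fermat.Agent.S17.NG
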