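import Fermat.Agent.S17.Top.Interface

/-!
# S17, block NG, node NG0a: the height of the coefficient vector of `∏ (X - α i)`
(owner helper217)

The coefficient vector is a fixed linear image of the Segre tensor of the points `(1 : α i)`.
-/

set_option autoImplicit false

noncomputable section

namespace Fermat.Agent.S17.NG

open Polynomial

/-- the two "monomials" `X` and `-1` -/
def coeffHeightMon (K : Type) [Field K] : Fin 2 → K[X] := ![X, -1]

theorem coeffHeight_expand {K : Type} [Field K] (k : ℕ) (α : Fin k → K) :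
    ∏ i, (X - C (α i)) = ∑ I : Fin k → Fin 2,
      (∏ i, coeffHeightMon K (I i)) * C (∏ i, (![1, α i] : Fin 2 → K) (I i)) := by
  have h1 : ∀ i, X - C (α i)
      = ∑ b : Fin 2, coeffHeightMon K b * C ((![1, α i] : Fin 2 → K) b) := by
    intro i
    rw [Fin.sum_univ_two]
    simp [coeffHeightMon, sub_eq_add_neg]
  simp_rw [h1]
  rw [Fintype.prod_sum]
  refine Finset.sum_congr rfl fun I _ => ?_
  rw [Finset.prod_mul_distrib, map_prod]

theorem coeffHeight_coeff {K : Type} [Field K] (k : ℕ) (α : Fin k → K) (j : ℕ) :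
    (∏ i, (X - C (α i))).coeff j = ∑ I : Fin k → Fin 2,
      (∏ i, coeffHeightMon K (I i)).coeff j * ∏ i, (![1, α i] : Fin 2 → K) (I i) := by
  rw [coeffHeight_expand, finsetSum_coeff]
  refine Finset.sum_congr rfl fun I _ => ?_
  rw [coeff_mul_C]

/-- NG0a: the height of the coefficient vector of `∏ (X - α i)`. -/
theorem exists_height_coeff_prod_le (H : TP.HeightFn Qb) (k : ℕ) :
    ∃ C₀ : ℝ, ∀ α : Fin k → Qb,
      H.h (fun j : Fin (k + 1) => (∏ i, (X - C (α i))).coeff (j : ℕ)) ≤ ∑ i, H.h ![1, α i] + C₀ := by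
  obtain ⟨C₀, hC₀⟩ := H.linear (ι := Fin k → Fin 2) (ι' := Fin (k + 1))
    (fun j I => (∏ i, coeffHeightMon Qb (I i)).coeff (j : ℕ))
  refine ⟨C₀, fun α => ?_⟩
  have h1 := hC₀ (fun I => ∏ i, (![1, α i] : Fin 2 → Qb) (I i))
  have h2 := H.prod (α := Fin k) (ι := fun _ => Fin 2) (fun i => (![1, α i] : Fin 2 → Qb))
    (fun i h => one_ne_zero (congrFun h 0))
  rw [h2] at h1
  simp_rw [coeffHeight_coeff]
  exact h1

end Fermat.Agent.S17.NG

end
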