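import Mathlib
import Fermat.Agent.S17.Defs

/-!
# S17, block NG, node NG0b: an element of a finite Galois stable set has small degree
-/

set_option autoImplicit false

noncomputable section

namespace Fermat.Agent.S17.NG

open Polynomial

/-- NG0b: an element of a finite Galois stable set has small degree. -/
theorem natDegree_minpoly_le_card (S : Finset Qb) (hS : ∀ σ : GQ, ∀ a ∈ S, σ a ∈ S) (α : Qb)
    (hα : α ∈ S) : (minpoly ℚ α).natDegree ≤ S.card := by
  classical
  have hcl : IsAlgClosure ℚ Qb := by
    have h : (DivisionRing.toRatAlgebra : Algebra ℚ (AlgebraicClosure ℚ)) =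
        AlgebraicClosure.instAlgebra ℚ := Subsingleton.elim _ _
    show @IsAlgClosure ℚ (AlgebraicClosure ℚ) _ _ DivisionRing.toRatAlgebra _
    rw [h]
    infer_instance
  have hgal : IsGalois ℚ Qb := inferInstance
  have hint : IsIntegral ℚ α := Algebra.IsIntegral.isIntegral α
  have hsep : (minpoly ℚ α).Separable := (minpoly.irreducible hint).separable
  have hsplit : ((minpoly ℚ α).map (algebraMap ℚ Qb)).Splits := IsAlgClosed.splits _
  rw [← Polynomial.card_rootSet_eq_natDegree hsep hsplit, ← Set.toFinset_card]
  refine Finset.card_le_card fun β hβ => ?_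
  rw [Set.mem_toFinset] at hβ
  have hconj : IsConjRoot ℚ α β := (isConjRoot_iff_mem_minpoly_rootSet hint).2 hβ
  obtain ⟨σ, hσ⟩ := isConjRoot_iff_exists_algEquiv.1 hconj.symm
  rw [← hσ]
  exact hS σ α hα

end Fermat.Agent.S17.NG

end
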