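import Fermat.Agent.S17.NG.Bounded
import Fermat.Agent.S17.NG.CoeffHeight
import Fermat.Agent.S17.NG.Conj
import Fermat.Agent.S17.NG.Equiv
import Fermat.Agent.S17.NG.Fibre

/-!
# S17, block NG, node NG5: the abstract finiteness statement (skeleton helper17, proof helper129)

For a Galois fixed class `z`, the reduced divisor `E` of `-z` is Galois stable, effective, of degree
at most the genus and avoids `P₀`.  The values of the fixed function `x` at the points of `E` form a
Galois stable set with at most `g` elements, of bounded height: Northcott in bounded degree leaves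
finitely many values, hence finitely many points, hence finitely many divisors `E`, and `z` is
determined by `E`.
-/

set_option autoImplicit false

noncomputable section

namespace Fermat.Agent.S17.NG

open AlgebraicCurve Fermat.Agent.S24 Fermat.Agent.S24.FF Fermat.Agent.S27 ModularCurve Polynomial

/-- the cardinality of the support of an effective divisor is at most its degree -/
theorem Aux.card_support_le {K F : Type*} [Field K] [Field F] [Algebra K F] [IsAlgClosed K]
    [CharZero K] [IsFF1 K F] (E : Divisor K F) (hE : 0 ≤ E) :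
    (E.support.card : ℤ) ≤ Divisor.degree E := by
  rw [degree_eq_sum, Finsupp.sum]
  have h1 : ∀ P ∈ E.support, (1 : ℤ) ≤ E P := fun P hP =>
    Int.add_one_le_iff.2 (lt_of_le_of_ne (hE P) (Ne.symm (Finsupp.mem_support_iff.1 hP)))
  calc (E.support.card : ℤ) = ∑ _P ∈ E.support, (1 : ℤ) := by simp
    _ ≤ ∑ P ∈ E.support, E P := Finset.sum_le_sum h1

/-- a function in `L(μ P₀)` is regular away from `P₀` -/
theorem Aux.ord_nonneg_of_mem_Lm {K F : Type*} [Field K] [Field F] [Algebra K F]
    {P₀ : Place K F} {μ : ℕ} {x : F} (hx : x ∈ Lm P₀ μ) {P : Place K F} (hP : P ≠ P₀) :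
    0 ≤ P.ord x := by
  have h := (mem_riemannRochSpace_iff.1 hx) P
  rcases h with h | h
  · rw [h]
    simp
  · have h0 : (μ • pt P₀ : Divisor K F) P = 0 := by
      rw [Finsupp.smul_apply, pt_apply_of_ne (Ne.symm hP), smul_zero]
    rwa [h0, neg_zero] at h

theorem finite_eta_le_aux {F : Type} [Field F] [Algebra Qb F] [IsFF1 Qb F] [NonConst Qb F]
    (H : TP.HeightFn Qb) (hH : IsArith H) (P₀ : Place Qb F) (o : HtOut H P₀)
    (γ : GQ →* SemilinearAut Qb F) (hγ : ∀ (σ : GQ) (a : Qb), SemilinearAut.baseAut (γ σ) a = σ a)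
    (hP₀ : ∀ σ, γ σ • P₀ = P₀) (μ : ℕ) (x : F) (hx : x ∈ Lm P₀ μ) (hfix : ∀ σ, γ σ • x = x)
    (hnc : ¬ ∃ c : Qb, x = algebraMap Qb F c) (B : ℝ) :
    {z : Pic0 Qb F | (∀ σ, γ σ • z = z) ∧ o.eta z ≤ B}.Finite := by
  classical
  obtain ⟨C', hC'⟩ := o.point μ x hx
  -- the finite set of values
  have hA : {α : Qb | (minpoly ℚ α).natDegree ≤ genusFF Qb F ∧
      H.h ![1, α] ≤ μ * B + C'}.Finite :=
    finite_setOf_natDegree_le_height_le_of H hH (exists_height_coeff_prod_le H) _ _
  -- the finite set of points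
  have hT : (⋃ c ∈ {α : Qb | (minpoly ℚ α).natDegree ≤ genusFF Qb F ∧
      H.h ![1, α] ≤ μ * B + C'}, {P : Place Qb F | 0 ≤ P.ord x ∧ ev P x = c}).Finite :=
    hA.biUnion fun c _ => finite_setOf_ev_eq x hnc c
  -- the finite set of divisors
  have hE := finite_setOf_effective _ hT (genusFF Qb F)
  refine (hE.image fun E => - cls (E - (Divisor.degree E) • pt P₀)).subset ?_
  rintro z ⟨hz, hB⟩
  have hred : IsRed P₀ (-z) (redDiv P₀ (-z)) := isRed_redDiv P₀ (-z)
  set E := redDiv P₀ (-z) with hEdef
  have hEfix : ∀ σ, γ σ • E = E := fun σ =>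
    smul_redDiv (γ σ) (hP₀ σ) (by rw [smul_neg, hz σ])
  have hE0 : 0 ≤ E := hred.1
  have hdeg : Divisor.degree E ≤ genusFF Qb F := Fermat.Agent.S17.F.IsRed.degree_le hred
  have hbase : E P₀ = 0 := Fermat.Agent.S17.F.IsRed.apply_base hred
  refine ⟨E, ⟨hE0, ?_, hdeg⟩, ?_⟩
  · intro P hP
    have hP' : P ∈ E.support := hP
    have hne : P ≠ P₀ := by
      rintro rfl
      exact (Finsupp.mem_support_iff.1 hP') hbase
    have hord : 0 ≤ P.ord x := Aux.ord_nonneg_of_mem_Lm hx hne
    have hhoo : o.hoo P ≤ B := le_trans (le_sumD o.hoo o.hoo_nonneg E hE0 P hP') hB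
    have hh : H.h ![1, ev P x] ≤ μ * B + C' := by
      refine le_trans (hC' P hne) ?_
      have := mul_le_mul_of_nonneg_left hhoo (Nat.cast_nonneg (α := ℝ) μ)
      linarith
    -- the Galois stable set of values
    have hS : ∀ σ : GQ, ∀ a ∈ E.support.image (fun Q => ev Q x), σ a ∈
        E.support.image (fun Q => ev Q x) := by
      intro σ a ha
      obtain ⟨Q, hQ, rfl⟩ := Finset.mem_image.1 ha
      refine Finset.mem_image.2 ⟨γ σ • Q, ?_, ?_⟩
      · rw [Finsupp.mem_support_iff] at hQ ⊢
        have h1 := SemilinearAut.divisor_smul_apply_smul (γ σ) E Q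
        rw [hEfix σ] at h1
        rwa [h1]
      · have h1 := ev_smul (γ σ) Q x
        rw [hfix σ, hγ] at h1
        exact h1
    have hcard : (E.support.image (fun Q => ev Q x)).card ≤ genusFF Qb F := by
      have h1 : (E.support.image (fun Q => ev Q x)).card ≤ E.support.card := Finset.card_image_le
      have h2 := Aux.card_support_le E hE0
      omega
    have hmin := natDegree_minpoly_le_card _ hS (ev P x) (Finset.mem_image_of_mem _ hP')
    simp only [Set.mem_iUnion]
    exact ⟨ev P x, ⟨le_trans hmin hcard, hh⟩, hord, rfl⟩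
  · show - cls (E - (Divisor.degree E) • pt P₀) = z
    rw [hred.2.1, neg_neg]

end Fermat.Agent.S17.NG
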