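import Fermat.Agent.S17.Top.Interface
import Fermat.Agent.S17.NG.CoeffHeight

/-!
# S17, block NG, node NG0c: Northcott for algebraic numbers of bounded degree
-/

set_option autoImplicit false

noncomputable section

namespace Fermat.Agent.S17.NG

open Polynomial

/-- the vector of the lower coefficients of a polynomial of degree `k`, from the top -/
def coeffVec (k : ℕ) (p : ℚ[X]) : Fin k → ℚ := fun i => p.coeff (k - 1 - i)

theorem coeffVec_injOn (k : ℕ) :
    Set.InjOn (coeffVec k) {p : ℚ[X] | p.Monic ∧ p.natDegree = k} := by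
  rintro p ⟨hp, hpk⟩ q ⟨hq, hqk⟩ h
  ext n
  rcases lt_trichotomy n k with hn | rfl | hn
  · have := congrFun h ⟨k - 1 - n, by omega⟩
    simp only [coeffVec] at this
    have e : k - 1 - (k - 1 - n) = n := by omega
    rwa [e] at this
  · have h1 : p.coeff p.natDegree = 1 := hp
    have h2 : q.coeff q.natDegree = 1 := hq
    rw [hpk] at h1
    rw [hqk] at h2
    rw [h1, h2]
  · rw [coeff_eq_zero_of_natDegree_lt (by omega), coeff_eq_zero_of_natDegree_lt (by omega)]

theorem isAlgebraic_rat_Qb : Algebra.IsAlgebraic ℚ Qb := AlgebraicClosure.isAlgebraic ℚ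

theorem normal_rat_Qb : Normal ℚ Qb :=
  have := isAlgebraic_rat_Qb
  have : IsAlgClosure ℚ Qb := ⟨inferInstance, inferInstance⟩
  IsAlgClosure.normal ℚ Qb

/-- the minimal polynomial is the product of `X - a i` for a tuple of conjugates -/
theorem exists_conj_tuple (α : Qb) (k : ℕ) (hk : (minpoly ℚ α).natDegree = k) :
    ∃ a : Fin k → Qb, (∀ i, ∃ σ : GQ, σ α = a i) ∧
      (minpoly ℚ α).map (algebraMap ℚ Qb) = ∏ i, (X - C (a i)) := by
  have := isAlgebraic_rat_Qb
  have := normal_rat_Qb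
  have hint : IsIntegral ℚ α := Algebra.IsIntegral.isIntegral α
  obtain ⟨p, hp⟩ : ∃ p : Qb[X], p = (minpoly ℚ α).map (algebraMap ℚ Qb) := ⟨_, rfl⟩
  have hs : p.Splits := IsAlgClosed.splits p
  have hm : p.Monic := hp ▸ (minpoly.monic hint).map _
  have hlen : p.roots.toList.length = k := by
    rw [Multiset.length_toList, ← hs.natDegree_eq_card_roots, hp, natDegree_map, hk]
  have hroot : ∀ b ∈ p.roots, aeval b (minpoly ℚ α) = 0 := by
    intro b hb
    have := (mem_roots hm.ne_zero).mp hb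
    rwa [IsRoot.def, hp, eval_map_algebraMap] at this
  rw [← hp]
  subst hlen
  refine ⟨fun i => p.roots.toList[i.1], fun i => ?_, ?_⟩
  · have hmem : p.roots.toList[i.1] ∈ p.roots := Multiset.mem_toList.mp (List.getElem_mem _)
    exact minpoly.exists_algEquiv_of_root' hint.isAlgebraic (hroot _ hmem)
  · rw [Fin.prod_univ_fun_getElem p.roots.toList (fun a => X - C a)]
    conv_lhs => rw [hs.eq_prod_roots_of_monic hm]
    conv_lhs => rw [← Multiset.coe_toList p.roots]
    rw [Multiset.map_coe, Multiset.prod_coe]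

/-- NG0c, with NG0a as a hypothesis. -/
theorem finite_setOf_natDegree_le_height_le_of (H : TP.HeightFn Qb) (hH : IsArith H)
    (hA : ∀ k : ℕ, ∃ C₀ : ℝ, ∀ α : Fin k → Qb,
      H.h (fun j : Fin (k + 1) => (∏ i, (X - C (α i))).coeff (j : ℕ)) ≤ ∑ i, H.h ![1, α i] + C₀)
    (d : ℕ) (B : ℝ) : {α : Qb | (minpoly ℚ α).natDegree ≤ d ∧ H.h ![1, α] ≤ B}.Finite := by
  have := isAlgebraic_rat_Qb
  choose C₀ hC₀ using hA
  -- the finite set of polynomials
  have hfinP : ∀ k : ℕ, {p : ℚ[X] | (p.Monic ∧ p.natDegree = k) ∧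
      H.h (Fin.cons (1 : Qb) (fun i => algebraMap ℚ Qb (coeffVec k p i)) : Fin (k + 1) → Qb)
        ≤ k * B + C₀ k}.Finite := by
    intro k
    refine Set.Finite.of_injOn (f := coeffVec k) (t := {x : Fin k → ℚ |
      H.h (Fin.cons (1 : Qb) (fun i => algebraMap ℚ Qb (x i)) : Fin (k + 1) → Qb)
        ≤ k * B + C₀ k}) ?_ ?_ (hH.northcott k _)
    · intro p hp
      exact hp.2
    · exact (coeffVec_injOn k).mono fun p hp => hp.1
  have hfin : (⋃ k ∈ Finset.range (d + 1), ⋃ p ∈ {p : ℚ[X] | (p.Monic ∧ p.natDegree = k) ∧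
      H.h (Fin.cons (1 : Qb) (fun i => algebraMap ℚ Qb (coeffVec k p i)) : Fin (k + 1) → Qb)
        ≤ k * B + C₀ k}, p.rootSet Qb).Finite := by
    refine Set.Finite.biUnion (Finset.finite_toSet _) fun k _ => ?_
    exact Set.Finite.biUnion (hfinP k) fun p _ => p.rootSet_finite Qb
  refine hfin.subset ?_
  rintro α ⟨hd, hB⟩
  have hint : IsIntegral ℚ α := Algebra.IsIntegral.isIntegral α
  obtain ⟨k, hk⟩ : ∃ k, (minpoly ℚ α).natDegree = k := ⟨_, rfl⟩
  obtain ⟨a, ha, hprod⟩ := exists_conj_tuple α k hk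
  simp only [Set.mem_iUnion]
  refine ⟨k, Finset.mem_range.mpr (by omega), minpoly ℚ α, ⟨⟨minpoly.monic hint, hk⟩, ?_⟩, ?_⟩
  · have h1 := hC₀ k a
    rw [← hprod] at h1
    have h2 : ∀ i, H.h ![1, a i] = H.h ![1, α] := by
      intro i
      obtain ⟨σ, hσ⟩ := ha i
      rw [← hH.galois σ ![1, α], ← hσ]
      congr 1
      ext j
      fin_cases j <;> simp
    have h3 : ∑ i, H.h ![1, a i] ≤ k * B := by
      rw [Finset.sum_congr rfl fun i _ => h2 i, Finset.sum_const, Finset.card_univ,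
        Fintype.card_fin, nsmul_eq_mul]
      exact mul_le_mul_of_nonneg_left hB (Nat.cast_nonneg k)
    have h4 : (Fin.cons (1 : Qb) (fun i => algebraMap ℚ Qb (coeffVec k (minpoly ℚ α) i)) :
        Fin (k + 1) → Qb) =
        (fun j : Fin (k + 1) => ((minpoly ℚ α).map (algebraMap ℚ Qb)).coeff (j : ℕ)) ∘
          Fin.revPerm := by
      ext j
      refine Fin.cases ?_ (fun i => ?_) j
      · have : (minpoly ℚ α).coeff k = 1 := hk ▸ (minpoly.monic hint)
        simp [this]
      · simp only [Fin.cons_succ, coeffVec, Function.comp_apply, Fin.revPerm_apply, coeff_map,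
          Fin.val_rev, Fin.val_succ]
        congr 2
        omega
    rw [h4, H.comp_equiv]
    linarith
  · rw [mem_rootSet]
    exact ⟨minpoly.ne_zero hint, minpoly.aeval ℚ α⟩

/-- NG0c: Northcott for algebraic numbers of bounded degree. -/
theorem finite_setOf_natDegree_le_height_le (H : TP.HeightFn Qb) (hH : IsArith H) (d : ℕ)
    (B : ℝ) : {α : Qb | (minpoly ℚ α).natDegree ≤ d ∧ H.h ![1, α] ≤ B}.Finite :=
  finite_setOf_natDegree_le_height_le_of H hH (exists_height_coeff_prod_le H) d B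

end Fermat.Agent.S17.NG
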