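import Fermat.Agent.S17.F.Basic
import Fermat.Agent.S17.W.FixedDiv

/-!
# S17, block NG, node NG3 (helper186): a Galois fixed nonconstant function with its only pole at
the cusp.

Let `μ` be minimal with `dim L(μ ∞) ≥ 2`.  Then `L((μ-1) ∞)` consists of the constants, and there is a
unique `x ∈ L(μ ∞)` whose `q`-expansion has coefficient `1` at `q^(-μ)` and `0` at `q^0`.  By
uniqueness it is fixed by `G_ℚ`.
-/

set_option autoImplicit false

noncomputable section

namespace Fermat.Agent.S17.NG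

open AlgebraicCurve Fermat.Agent.S24 Fermat.Agent.S24.FF Fermat.Agent.S27 ModularCurve Polynomial
open Module

section General

variable {K F : Type*} [Field K] [Field F] [Algebra K F] [IsAlgClosed K] [CharZero K] [IsFF1 K F]
  [NonConst K F]

/-- the first nongap at `P₀` -/
theorem FixedFun.exists_min (P₀ : Place K F) :
    ∃ (μ : ℕ) (y : F), 0 < μ ∧ y ∈ Lm P₀ μ ∧ y ≠ 0 ∧ P₀.ord y = -(μ : ℤ) ∧
      ∀ f ∈ Lm P₀ μ, (f = 0 ∨ -(μ : ℤ) < P₀.ord f) → ∃ c : K, f = algebraMap K F c := by
  classical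
  have hex : ∃ μ : ℕ, 2 ≤ finrank K (Lm P₀ μ) := by
    refine ⟨h1Bound K F + genusFF K F + 1, ?_⟩
    have hdeg : Divisor.degree ((h1Bound K F + genusFF K F + 1) • pt P₀) =
        ((h1Bound K F + genusFF K F + 1 : ℕ) : ℤ) := by
      rw [map_nsmul, S17.F.deg_pt_eq_one]
      simp
    have h1 := S17.F.finrank_L_eq ((h1Bound K F + genusFF K F + 1) • pt P₀) (by rw [hdeg]; omega)
    rw [hdeg] at h1
    rw [Lm]
    omega
  set μ := Nat.find hex with hμdef
  have hμ : 2 ≤ finrank K (Lm P₀ μ) := Nat.find_spec hex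
  have hμ0 : 0 < μ := by
    rcases Nat.eq_zero_or_pos μ with h | h
    · rw [h, Lm, zero_smul, Riemann.finrank_L_zero] at hμ
      omega
    · exact h
  have hmin : finrank K (Lm P₀ (μ - 1)) < 2 := by
    have := Nat.find_min hex (m := μ - 1) (by omega)
    omega
  have hconst : ∀ f ∈ Lm P₀ (μ - 1), ∃ c : K, f = algebraMap K F c := by
    have h1 : K ∙ (1 : F) ≤ Lm P₀ (μ - 1) := by
      rw [← Riemann.L_zero]
      refine Riemann.L_mono ?_
      intro w
      rw [Finsupp.smul_apply, pt, Finsupp.single_apply]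
      split_ifs <;> simp
    have hfin : Module.Finite K (Lm P₀ (μ - 1)) := finite_riemannRochSpace _
    have heq : K ∙ (1 : F) = Lm P₀ (μ - 1) :=
      Submodule.eq_of_le_of_finrank_le h1 (by rw [finrank_span_singleton one_ne_zero]; omega)
    intro f hf
    rw [← heq, Submodule.mem_span_singleton] at hf
    obtain ⟨c, rfl⟩ := hf
    exact ⟨c, by rw [Algebra.smul_def, mul_one]⟩
  have hsub : (μ • pt P₀ : Divisor K F) - pt P₀ = (μ - 1) • pt P₀ := by
    obtain ⟨k, hk⟩ : ∃ k, μ = k + 1 := ⟨μ - 1, by omega⟩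
    rw [hk, succ_nsmul, add_sub_cancel_right, Nat.add_sub_cancel]
  have hval : (μ • pt P₀ : Divisor K F) P₀ = (μ : ℤ) := by
    simp [pt]
  have hkey : ∀ f ∈ Lm P₀ μ, (f = 0 ∨ -(μ : ℤ) < P₀.ord f) →
      ∃ c : K, f = algebraMap K F c := by
    intro f hf h
    apply hconst
    rw [Lm, ← hsub, S17.F.mem_L_sub_pt_iff, hval]
    exact ⟨hf, h⟩
  have hy : ∃ y ∈ Lm P₀ μ, ¬ (y = 0 ∨ -(μ : ℤ) < P₀.ord y) := by
    by_contra hno
    have hle : Lm P₀ μ ≤ K ∙ (1 : F) := by
      intro f hf
      have hf' : f = 0 ∨ -(μ : ℤ) < P₀.ord f := by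
        by_contra h
        exact hno ⟨f, hf, h⟩
      obtain ⟨c, rfl⟩ := hkey f hf hf'
      rw [Submodule.mem_span_singleton]
      exact ⟨c, by rw [Algebra.smul_def, mul_one]⟩
    have := Submodule.finrank_mono hle
    rw [finrank_span_singleton one_ne_zero] at this
    omega
  obtain ⟨y, hy, hy'⟩ := hy
  rw [not_or, not_lt] at hy'
  refine ⟨μ, y, hμ0, hy, hy'.1, ?_, hkey⟩
  have := ((mem_riemannRochSpace_iff.mp hy) P₀).resolve_left hy'.1
  rw [hval] at this
  omega

omit [IsAlgClosed K] [CharZero K] [IsFF1 K F] [NonConst K F] in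
/-- a semilinear automorphism fixing `P₀` preserves `L(μ P₀)` -/
theorem FixedFun.smul_mem_Lm (g : SemilinearAut K F) {P₀ : Place K F} (hP : g • P₀ = P₀) {μ : ℕ}
    {f : F} (hf : f ∈ Lm P₀ μ) : g • f ∈ Lm P₀ μ := by
  classical
  rw [Lm, mem_riemannRochSpace_iff] at hf ⊢
  intro v
  rcases hf (g⁻¹ • v) with h | h
  · left
    rw [h, smul_zero]
  · right
    have h1 := SemilinearAut.ord_smul g (g⁻¹ • v) f
    rw [smul_inv_smul] at h1
    rw [h1]
    have h2 : (μ • pt P₀ : Divisor K F) (g⁻¹ • v) = (μ • pt P₀ : Divisor K F) v := by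
      rw [Finsupp.smul_apply, Finsupp.smul_apply, pt, Finsupp.single_apply, Finsupp.single_apply]
      have : P₀ = g⁻¹ • v ↔ P₀ = v := by
        constructor
        · intro h
          rw [← hP, h, smul_inv_smul]
        · intro h
          rw [← h, eq_inv_smul_iff, hP]
      simp only [this]
    rw [← h2]
    exact h

end General

theorem FixedFun.coe_algebraMap (N : ℕ) (c : Kbar) :
    ((algebraMap Kbar (FN N) c : FN N) : LaurentSeries Kbar) = HahnSeries.single 0 c := by
  show algebraMap Kbar (LaurentSeries Kbar) c = _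
  exact algebraMap_laurentSeries_eq_single Kbar c

theorem FixedFun.coeff_smul (N : ℕ) (σ : GQ) (f : FN N) (n : ℤ) :
    ((arithmeticGalois (modularFunctionFieldFull N) σ • f : FN N) : LaurentSeries Kbar).coeff n =
      σ ((f : LaurentSeries Kbar).coeff n) := by
  rw [coe_arithmeticGalois_smul, coeffMap_coeff]
  rfl

theorem exists_fixed_nonconst (N : ℕ) [NeZero N] :
    ∃ (μ : ℕ) (x : FN N), x ∈ Lm (W.cusp N) μ ∧ (∀ σ : GQ, arithmeticGalois (modularFunctionFieldFull N) σ • x = x) ∧
      ¬ ∃ c : Kbar, x = algebraMap Kbar (FN N) c := by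
  have : FF.IsFF1 Kbar (FN N) := Export.isFF1 N
  have : NonConst Kbar (FN N) := ⟨⟨jF N, Formal.transcendental_jF N⟩⟩
  obtain ⟨μ, y, hμ, hy, hy0, hord, hkey⟩ := FixedFun.exists_min (W.cusp N)
  rw [W.ord_cusp N y hy0] at hord
  have hy0' : (y : LaurentSeries Kbar) ≠ 0 := fun h => hy0 (Subtype.ext h)
  set a : Kbar := (y : LaurentSeries Kbar).coeff (-(μ : ℤ)) with ha
  have ha0 : a ≠ 0 := by
    rw [ha, ← hord]
    exact HahnSeries.coeff_order_eq_zero.not.mpr hy0'
  set b : Kbar := a⁻¹ * (y : LaurentSeries Kbar).coeff 0 with hb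
  set x : FN N := algebraMap Kbar (FN N) a⁻¹ * y - algebraMap Kbar (FN N) b with hx
  have hcoeff : ∀ n : ℤ, (x : LaurentSeries Kbar).coeff n =
      a⁻¹ * (y : LaurentSeries Kbar).coeff n - (HahnSeries.single 0 b : LaurentSeries Kbar).coeff n := by
    intro n
    have h1 : (x : LaurentSeries Kbar) = (HahnSeries.single 0 a⁻¹ : LaurentSeries Kbar) * (y : LaurentSeries Kbar)
        - HahnSeries.single 0 b := by
      rw [← FixedFun.coe_algebraMap N, ← FixedFun.coe_algebraMap N]
      rfl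
    rw [h1, HahnSeries.coeff_sub, HahnSeries.coeff_single_mul, sub_zero]
  have hμne : -(μ : ℤ) ≠ 0 := by omega
  have hx1 : (x : LaurentSeries Kbar).coeff (-(μ : ℤ)) = 1 := by
    rw [hcoeff, HahnSeries.coeff_single_of_ne hμne, sub_zero, ← ha, inv_mul_cancel₀ ha0]
  have hx2 : (x : LaurentSeries Kbar).coeff 0 = 0 := by
    rw [hcoeff, HahnSeries.coeff_single_same, ← hb, sub_self]
  have hone : ∀ c : Kbar, algebraMap Kbar (FN N) c ∈ Lm (W.cusp N) μ := by
    intro c
    have h1 : (1 : FN N) ∈ Lm (W.cusp N) μ := by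
      have h2 : riemannRochSpace (0 : Divisor Kbar (FN N)) ≤ Lm (W.cusp N) μ := by
        classical
        refine Riemann.L_mono ?_
        intro w
        rw [Finsupp.smul_apply, pt, Finsupp.single_apply]
        split_ifs <;> simp
      apply h2
      rw [Riemann.L_zero]
      exact Submodule.mem_span_singleton_self 1
    have := (Lm (W.cusp N) μ).smul_mem c h1
    rwa [Algebra.smul_def, mul_one] at this
  have hxmem : x ∈ Lm (W.cusp N) μ := by
    refine Submodule.sub_mem _ ?_ (hone b)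
    have := (Lm (W.cusp N) μ).smul_mem a⁻¹ hy
    rwa [Algebra.smul_def] at this
  refine ⟨μ, x, hxmem, ?_, ?_⟩
  · intro σ
    set g := arithmeticGalois (modularFunctionFieldFull N) σ with hg
    set dd : FN N := g • x - x with hdd
    have hdmem : dd ∈ Lm (W.cusp N) μ :=
      Submodule.sub_mem _ (FixedFun.smul_mem_Lm g (W.smul_cusp N σ) hxmem) hxmem
    have hdc : ∀ n : ℤ, (dd : LaurentSeries Kbar).coeff n =
        σ ((x : LaurentSeries Kbar).coeff n) - (x : LaurentSeries Kbar).coeff n := by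
      intro n
      rw [← FixedFun.coeff_smul]
      rfl
    have hd1 : (dd : LaurentSeries Kbar).coeff (-(μ : ℤ)) = 0 := by
      rw [hdc, hx1, map_one, sub_self]
    have hd2 : (dd : LaurentSeries Kbar).coeff 0 = 0 := by
      rw [hdc, hx2, map_zero, sub_self]
    have hd3 : dd = 0 ∨ -(μ : ℤ) < (W.cusp N).ord dd := by
      by_cases hd0 : dd = 0
      · exact Or.inl hd0
      · right
        have h1 := ((mem_riemannRochSpace_iff.mp hdmem) (W.cusp N)).resolve_left hd0
        have hval : (μ • pt (W.cusp N) : Divisor Kbar (FN N)) (W.cusp N) = (μ : ℤ) := by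
          simp [pt]
        rw [hval] at h1
        refine lt_of_le_of_ne h1 ?_
        intro h2
        rw [W.ord_cusp N dd hd0] at h2
        rw [h2] at hd1
        exact hd0 (Subtype.ext (HahnSeries.coeff_order_eq_zero.mp hd1))
    obtain ⟨c, hc⟩ := hkey dd hdmem hd3
    rw [hc, FixedFun.coe_algebraMap, HahnSeries.coeff_single_same] at hd2
    rw [hd2, map_zero] at hc
    exact sub_eq_zero.mp hc
  · rintro ⟨c, hc⟩
    rw [hc, FixedFun.coe_algebraMap, HahnSeries.coeff_single_of_ne hμne] at hx1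
    exact zero_ne_one hx1

end Fermat.Agent.S17.NG

end
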