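import Fermat.Agent.S17.NG.AuxFin
import Fermat.Agent.S17.NG.FixedFun
import Fermat.Agent.S17.W.Main

/-!
# S17, block NG, node NG6: Northcott for `eta` on `J₀(N)(ℚ)`.   Owner: helper184.
-/

set_option autoImplicit false

noncomputable section

namespace Fermat.Agent.S17.NG

open AlgebraicCurve Fermat.Agent.S24 Fermat.Agent.S24.FF Fermat.Agent.S27 ModularCurve Polynomial

theorem finite_eta_le (N : ℕ) [NeZero N] (H : TP.HeightFn Qb) (hH : IsArith H)
    (o : HtOut H (W.cusp N)) (B : ℝ) :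
    {z : JZero N | z ∈ FixedPoints.addSubgroup GQ (JZero N) ∧ o.eta z ≤ B}.Finite := by
  haveI : IsFF1 Qb (FN N) := Export.isFF1 N
  haveI : NonConst Qb (FN N) := ⟨⟨jF N, Formal.transcendental_jF N⟩⟩
  obtain ⟨μ, x, hx, hfix, hnc⟩ := exists_fixed_nonconst N
  refine (finite_eta_le_aux H hH (W.cusp N) o
    (arithmeticGalois (modularFunctionFieldFull N)) (fun _ _ => rfl) (W.smul_cusp N) μ x hx hfix
    hnc B).subset ?_
  rintro z ⟨hz, hB⟩
  exact ⟨fun σ => hz σ, hB⟩

end Fermat.Agent.S17.NG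

end
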